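/-
Program C (S55), package C8 (helper29's SPEC v2, `H29/C8Hasse.lean`), leaf (QUOT-PRES) — helper79.

The change of presentation
`H²(Gal(K/k) ⧸ Gal(K/E), (Kˣ)^{Gal(K/E)}) → H²(Gal(E/k), Eˣ)` (`H88.quotH2`) is an isomorphism,
in particular injective: `quotGalEquiv` is a group isomorphism and `invariantsToUnits` is the
inverse of the bijection `unitsToInvariants`.

* `quotH2Iso` : the isomorphism, `map_quotGal_eq` : `quotH2` is its `hom`;
* `quotH2_injective`, `quotH2_bijective`;
* `quotH2InjStatement : H29.QuotH2InjStatement` (VERBATIM).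
-/
import Mathlib
import Fermat.Agent.S55.H29.C8Hasse

set_option autoImplicit false

open CategoryTheory groupCohomology Rep

noncomputable section

namespace Fermat.Agent.S55.H79

open Fermat.Agent.S55.H88

section

variable (k E K : Type) [Field k] [Field E] [Field K] [Algebra k E] [Algebra E K] [Algebra k K]
  [IsScalarTower k E K] [Normal k E] [IsGalois k K] [FiniteDimensional k K]

/-- The linear equivalence `(Kˣ)^{Gal(K/E)} ≃ Eˣ` underlying `invariantsToUnits`. -/
def invUnitsEquiv :
    ((Rep.ofAlgebraAutOnUnits k K).quotientToInvariants (fixSubgroup k E K)).V ≃ₗ[ℤ]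
      (Rep.ofAlgebraAutOnUnits k E).V :=
  (LinearEquiv.ofBijective (unitsToInvariants k E K) (unitsToInvariants_bijective k E K)).symm

theorem invUnitsEquiv_apply
    (x : ((Rep.ofAlgebraAutOnUnits k K).quotientToInvariants (fixSubgroup k E K)).V) :
    invUnitsEquiv k E K x = (invariantsToUnits k E K).hom x := rfl

theorem invUnits_comm (g : (K ≃ₐ[k] K) ⧸ fixSubgroup k E K) :
    (invUnitsEquiv k E K).toLinearMap ∘ₗ
        ((Rep.ofAlgebraAutOnUnits k K).quotientToInvariants (fixSubgroup k E K)).ρ g =
      (Rep.ofAlgebraAutOnUnits k E).ρ (quotGalEquiv k E K g) ∘ₗ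
        (invUnitsEquiv k E K).toLinearMap := by
  refine LinearMap.ext fun x => ?_
  have h := Rep.hom_comm_apply (invariantsToUnits k E K) (quotGalEquiv k E K g) x
  have hg : (quotGalEquiv k E K).symm.toMonoidHom (quotGalEquiv k E K g) = g :=
    (quotGalEquiv k E K).symm_apply_apply g
  have h' : (Rep.res (quotGalEquiv k E K).symm.toMonoidHom
      ((Rep.ofAlgebraAutOnUnits k K).quotientToInvariants (fixSubgroup k E K))).ρ
        (quotGalEquiv k E K g) x
      = ((Rep.ofAlgebraAutOnUnits k K).quotientToInvariants (fixSubgroup k E K)).ρ g x := by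
    show ((Rep.ofAlgebraAutOnUnits k K).quotientToInvariants (fixSubgroup k E K)).ρ
        ((quotGalEquiv k E K).symm.toMonoidHom (quotGalEquiv k E K g)) x = _
    rw [hg]
  rw [h'] at h
  exact h

/-- `Hⁿ(Gal(K/k) ⧸ Gal(K/E), (Kˣ)^{Gal(K/E)}) ≅ Hⁿ(Gal(E/k), Eˣ)`. -/
def quotH2Iso (n : ℕ) :
    groupCohomology ((Rep.ofAlgebraAutOnUnits k K).quotientToInvariants (fixSubgroup k E K)) n ≅
      groupCohomology (Rep.ofAlgebraAutOnUnits k E) n :=
  mapIso (quotGalEquiv k E K) (invUnitsEquiv k E K) (invUnits_comm k E K) n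

theorem map_quotGal_eq :
    groupCohomology.map (quotGalEquiv k E K).symm.toMonoidHom (invariantsToUnits k E K) 2 =
      (quotH2Iso k E K 2).hom :=
  map_congr (MonoidHom.ext fun σ => rfl) (by ext x; rfl) 2

theorem quotH2_bijective : Function.Bijective (quotH2 k E K) := by
  have h : Function.Bijective (quotH2Iso k E K 2).hom.hom :=
    ConcreteCategory.bijective_of_isIso (quotH2Iso k E K 2).hom
  have e : (quotH2 k E K : _ → _) = (quotH2Iso k E K 2).hom.hom := by
    funext x
    show (groupCohomology.map (quotGalEquiv k E K).symm.toMonoidHom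
      (invariantsToUnits k E K) 2).hom x = _
    rw [map_quotGal_eq]
  rw [e]
  exact h

theorem quotH2_injective : Function.Injective (quotH2 k E K) := (quotH2_bijective k E K).1

end

/-- **Leaf (QUOT-PRES)** of `H29/C8Hasse.lean`, verbatim. -/
theorem quotH2InjStatement : Fermat.Agent.S55.H29.QuotH2InjStatement := by
  intro k E K _ _ _ _ _ _ _ _ _ _ _ _ _
  exact quotH2_injective k E K

end Fermat.Agent.S55.H79
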