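/-
Program C (S55), package C8 (helper29's SPEC v2, `H29/C8Hasse.lean`), leaf (SUB-PRES) — helper79.

The change of presentation `H²(Gal(K/E) ≤ Gal(K/k), Kˣ) → H²(Gal(K/E), Kˣ)` (`H88.subH2`) is an
isomorphism, in particular injective: `galToFix : Gal(K/E) → fixSubgroup k E K` is bijective and
`resUnitsHom` is the identity on `Kˣ`.

* `galToFix_bijective`, `galFixEquiv : (K ≃ₐ[E] K) ≃* fixSubgroup k E K`;
* `subH2Iso` : the isomorphism, `subH2_eq` : `subH2` is its inverse direction;
* `subH2_injective`, `subH2_bijective` (no hypothesis on the tower);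
* `subH2InjStatement : H29.SubH2InjStatement` (VERBATIM).
-/
import Mathlib
import Fermat.Agent.S55.H29.C8Hasse

set_option autoImplicit false

open CategoryTheory groupCohomology Rep

noncomputable section

namespace Fermat.Agent.S55.H79

open Fermat.Agent.S55.H88

section

variable (k E K : Type) [Field k] [Field E] [Field K] [Algebra k E] [Algebra E K] [Algebra k K]
  [IsScalarTower k E K]

theorem galToFix_injective : Function.Injective (galToFix k E K) := by
  intro σ τ h
  refine AlgEquiv.ext fun x => ?_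
  exact congrArg (fun ρ : fixSubgroup k E K => (ρ : K ≃ₐ[k] K) x) h

theorem galToFix_surjective : Function.Surjective (galToFix k E K) := by
  rintro ⟨σ, hσ⟩
  refine ⟨AlgEquiv.ofRingEquiv (f := σ.toRingEquiv) (fun e => hσ e), ?_⟩
  refine Subtype.ext (AlgEquiv.ext fun x => ?_)
  rfl

theorem galToFix_bijective : Function.Bijective (galToFix k E K) :=
  ⟨galToFix_injective k E K, galToFix_surjective k E K⟩

/-- `Gal(K/E) ≃* fixSubgroup k E K`. -/
def galFixEquiv : (K ≃ₐ[E] K) ≃* fixSubgroup k E K :=
  MulEquiv.ofBijective (galToFix k E K) (galToFix_bijective k E K)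

theorem galFixEquiv_apply (σ : K ≃ₐ[E] K) : galFixEquiv k E K σ = galToFix k E K σ := rfl

theorem resUnits_comm (g : K ≃ₐ[E] K) :
    (LinearEquiv.refl ℤ (Rep.ofAlgebraAutOnUnits E K).V).toLinearMap ∘ₗ
        (Rep.ofAlgebraAutOnUnits E K).ρ g =
      (Rep.res (fixSubgroup k E K).subtype (Rep.ofAlgebraAutOnUnits k K)).ρ (galFixEquiv k E K g) ∘ₗ
        (LinearEquiv.refl ℤ (Rep.ofAlgebraAutOnUnits E K).V).toLinearMap :=
  rfl

/-- `Hⁿ(Gal(K/E), Kˣ) ≅ Hⁿ(fixSubgroup k E K, Kˣ)`. -/
def subH2Iso (n : ℕ) :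
    groupCohomology (Rep.ofAlgebraAutOnUnits E K) n ≅
      groupCohomology (Rep.res (fixSubgroup k E K).subtype (Rep.ofAlgebraAutOnUnits k K)) n :=
  mapIso (galFixEquiv k E K) (LinearEquiv.refl ℤ (Rep.ofAlgebraAutOnUnits E K).V)
    (resUnits_comm k E K) n

theorem map_galToFix_eq :
    groupCohomology.map (galToFix k E K) (resUnitsHom k E K) 2 = (subH2Iso k E K 2).inv :=
  map_congr (MonoidHom.ext fun σ => rfl) (by ext x; rfl) 2

theorem subH2_bijective : Function.Bijective (subH2 k E K) := by
  have h : Function.Bijective (subH2Iso k E K 2).inv.hom :=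
    ConcreteCategory.bijective_of_isIso (subH2Iso k E K 2).inv
  have e : (subH2 k E K : _ → _) = (subH2Iso k E K 2).inv.hom := by
    funext x
    show (groupCohomology.map (galToFix k E K) (resUnitsHom k E K) 2).hom x = _
    rw [map_galToFix_eq]
  rw [e]
  exact h

theorem subH2_injective : Function.Injective (subH2 k E K) := (subH2_bijective k E K).1

end

/-- **Leaf (SUB-PRES)** of `H29/C8Hasse.lean`, verbatim. -/
theorem subH2InjStatement : Fermat.Agent.S55.H29.SubH2InjStatement := by
  intro k E K _ _ _ _ _ _ _ _ _ _ _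
  exact subH2_injective k E K

end Fermat.Agent.S55.H79
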