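/-
Program C (S55), package C8 (helper29's SPEC v2 part 2, `H29/C8Ex.lean`), leaves
(LOCDEG-MUL), (LOCDEG-QUOT), (BELOW) — helper79.

Local degrees in helper88's embedding model: for an embedding `τ : E →+* PadicAlgCl q` of an
extension `E / k`, `relDeg q k τ = [ℚ_q(τ E) : ℚ_q(τ k)]` (as a `relfinrank` of completions).

* `relDeg_eq_finrank` : `relDeg` is the `finrank` used in `FinPlace.locDeg` / `H29.locDegAt`;
* `relDeg_comp_algEquiv`, `relDeg_comp_aut` : invariance under the local Galois group and under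
  `Gal(E/k)`; `relDeg_eq_of_placeOf_eq` : for `E / k` normal the relative degree only depends on
  the place of `k` below;
* `relDeg_tower` : the tower law;
* `locDegMulStatement`, `locDegQuotStatement`, `belowStatement` : the three leaves VERBATIM.
-/
import Mathlib
import Fermat.Agent.S55.H29.C8Ex

set_option autoImplicit false

open scoped IntermediateField
open Module

noncomputable section

namespace Fermat.Agent.S55.H79

open Fermat.Agent.S55.H88

section Rel

variable (q : ℕ) [Fact q.Prime]

/-- Conjugating an embedding by the local Galois group conjugates the completion. -/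
theorem locField_comp_algEquiv {K : Type*} [Field K] (τ : K →+* PadicAlgCl q)
    (g : PadicAlgCl q ≃ₐ[ℚ_[q]] PadicAlgCl q) :
    locField q ((g : PadicAlgCl q →+* PadicAlgCl q).comp τ) =
      (locField q τ).map (g : PadicAlgCl q →ₐ[ℚ_[q]] PadicAlgCl q) := by
  unfold locField
  rw [IntermediateField.adjoin_map]
  congr 1
  ext y
  constructor
  · rintro ⟨x, rfl⟩
    exact ⟨τ x, ⟨x, rfl⟩, rfl⟩
  · rintro ⟨_, ⟨x, rfl⟩, rfl⟩
    exact ⟨x, rfl⟩

/-- Precomposing an embedding with an automorphism does not change the completion. -/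
theorem locField_comp_ringEquiv {K : Type*} [Field K] (τ : K →+* PadicAlgCl q) (σ : K ≃+* K) :
    locField q (τ.comp (σ : K →+* K)) = locField q τ := by
  unfold locField
  congr 1
  ext y
  constructor
  · rintro ⟨x, rfl⟩
    exact ⟨σ x, rfl⟩
  · rintro ⟨x, rfl⟩
    refine ⟨σ.symm x, ?_⟩
    show τ (σ (σ.symm x)) = τ x
    rw [σ.apply_symm_apply]

/-- The degree over `ℚ_q` of the completion only depends on the place. -/
theorem finrank_locField_eq_of_placeOf_eq {K : Type*} [Field K] (τ₁ τ₂ : K →+* PadicAlgCl q)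
    (h : placeOf q τ₁ = placeOf q τ₂) :
    finrank ℚ_[q] (locField q τ₁) = finrank ℚ_[q] (locField q τ₂) := by
  obtain ⟨g, hg⟩ := Quotient.exact h
  rw [hg, locField_comp_algEquiv]
  have key := IntermediateField.relfinrank_map_map (⊥ : IntermediateField ℚ_[q] (PadicAlgCl q))
    (locField q τ₁) (g : PadicAlgCl q →ₐ[ℚ_[q]] PadicAlgCl q)
  rw [IntermediateField.map_bot, IntermediateField.relfinrank_bot_left,
    IntermediateField.relfinrank_bot_left] at key
  exact key.symm

/-- The relative local degree `[ℚ_q(τ E) : ℚ_q(τ k)]` of an embedding `τ` of `E ⊇ k`. -/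
def relDeg (k : Type) {E : Type} [Field k] [Field E] [Algebra k E] (τ : E →+* PadicAlgCl q) : ℕ :=
  (locField q (τ.comp (algebraMap k E))).relfinrank (locField q τ)

section

variable (k : Type) {E : Type} [Field k] [Field E] [Algebra k E] (τ : E →+* PadicAlgCl q)

theorem relDeg_eq_finrank : relDeg q k τ = finrank (locBase q k τ) (locExt q k τ) :=
  IntermediateField.relfinrank_eq_finrank_of_le (locBase_le q k τ)

theorem finrank_mul_relDeg :
    finrank ℚ_[q] (locField q (τ.comp (algebraMap k E))) * relDeg q k τ =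
      finrank ℚ_[q] (locField q τ) :=
  IntermediateField.finrank_bot_mul_relfinrank (locBase_le q k τ)

theorem relDeg_comp_algEquiv (g : PadicAlgCl q ≃ₐ[ℚ_[q]] PadicAlgCl q) :
    relDeg q k ((g : PadicAlgCl q →+* PadicAlgCl q).comp τ) = relDeg q k τ := by
  unfold relDeg
  rw [RingHom.comp_assoc, locField_comp_algEquiv, locField_comp_algEquiv]
  exact IntermediateField.relfinrank_map_map _ _ _

theorem relDeg_comp_aut (σ : E ≃ₐ[k] E) :
    relDeg q k (τ.comp ((σ : E ≃+* E) : E →+* E)) = relDeg q k τ := by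
  unfold relDeg
  have h : (τ.comp ((σ : E ≃+* E) : E →+* E)).comp (algebraMap k E) = τ.comp (algebraMap k E) :=
    RingHom.ext fun x => congrArg τ (σ.commutes x)
  rw [h, locField_comp_ringEquiv]

/-- Embeddings in the same place have the same relative degree. -/
theorem relDeg_eq_of_placeOf_eq' (τ₁ τ₂ : E →+* PadicAlgCl q)
    (h : placeOf q τ₁ = placeOf q τ₂) : relDeg q k τ₁ = relDeg q k τ₂ := by
  obtain ⟨g, hg⟩ := Quotient.exact h
  rw [hg, relDeg_comp_algEquiv]

/-- For a normal extension the relative local degree only depends on the place below. -/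
theorem relDeg_eq_of_placeOf_eq [Normal k E] (τ₁ τ₂ : E →+* PadicAlgCl q)
    (h : placeOf q (τ₁.comp (algebraMap k E)) = placeOf q (τ₂.comp (algebraMap k E))) :
    relDeg q k τ₁ = relDeg q k τ₂ := by
  obtain ⟨g, hg⟩ := Quotient.exact h
  have h' : ((g : PadicAlgCl q →+* PadicAlgCl q).comp τ₁).comp (algebraMap k E) =
      τ₂.comp (algebraMap k E) := by
    rw [RingHom.comp_assoc]
    exact hg.symm
  obtain ⟨σ, hσ⟩ := exists_algEquiv_comp_eq q _ _ h'
  rw [hσ, relDeg_comp_aut, relDeg_comp_algEquiv]

end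

/-- The tower law for relative local degrees. -/
theorem relDeg_tower (k E : Type) {K : Type} [Field k] [Field E] [Field K] [Algebra k E]
    [Algebra E K] [Algebra k K] [IsScalarTower k E K] (τ : K →+* PadicAlgCl q) :
    relDeg q k (τ.comp (algebraMap E K)) * relDeg q E τ = relDeg q k τ := by
  have h : (τ.comp (algebraMap E K)).comp (algebraMap k E) = τ.comp (algebraMap k K) := by
    rw [RingHom.comp_assoc, ← IsScalarTower.algebraMap_eq]
  unfold relDeg
  rw [← h]
  exact IntermediateField.relfinrank_mul_relfinrank (locBase_le q k (τ.comp (algebraMap E K)))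
    (locBase_le q E τ)

end Rel

attribute [local instance] factOfPrimes

section Places

variable (k : Type) {E : Type} [Field k] [Field E] [Algebra k E]

theorem locDeg_eq_relDeg (w : FinPlace E) : w.locDeg k = relDeg (w.1 : ℕ) k w.emb :=
  (relDeg_eq_finrank (w.1 : ℕ) k w.emb).symm

theorem locDegAt_eq_relDeg [Normal k E] (v : FinPlace k) :
    Fermat.Agent.S55.H29.locDegAt k E v = relDeg (v.1 : ℕ) k (v.ext E) :=
  (relDeg_eq_finrank (v.1 : ℕ) k (v.ext E)).symm

/-- The place of the chosen embedding of the place below `w` is the place of `w.emb` restricted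
to `k`. -/
theorem placeOf_below_emb (w : FinPlace E) :
    placeOf (w.1 : ℕ) (w.below k).emb = placeOf (w.1 : ℕ) (w.emb.comp (algebraMap k E)) := by
  have h1 : placeOf (w.1 : ℕ) (w.below k).emb = PlaceAbove.restrict (w.1 : ℕ) k E w.2 :=
    Quotient.out_eq _
  have h2 : placeOf (w.1 : ℕ) w.emb = w.2 := Quotient.out_eq _
  rw [h1, ← h2]
  rfl

end Places

/-- **Leaf (LOCDEG-QUOT)** of `H29/C8Ex.lean`, verbatim. -/
theorem locDegQuotStatement : Fermat.Agent.S55.H29.LocDegQuotStatement := by
  intro k E _ _ _ _ _ _ w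
  rw [locDegAt_eq_relDeg, locDeg_eq_relDeg]
  refine relDeg_eq_of_placeOf_eq (w.1 : ℕ) k _ _ ?_
  have h0 : ((w.below k).ext E).comp (algebraMap k E) = (w.below k).emb :=
    FinPlace.ext_comp E (w.below k)
  exact (congrArg (placeOf ((w.below k).1 : ℕ)) h0).trans (placeOf_below_emb k w)

/-- **Leaf (LOCDEG-MUL)** of `H29/C8Ex.lean`, verbatim. -/
theorem locDegMulStatement : Fermat.Agent.S55.H29.LocDegMulStatement := by
  intro k E K _ _ _ _ _ _ _ _ _ _ _ w
  have : Normal E K := Normal.tower_top_of_normal k E K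
  show Fermat.Agent.S55.H29.locDegAt k K (w.below k) =
    w.locDeg k * Fermat.Agent.S55.H29.locDegAt E K w
  rw [locDegAt_eq_relDeg, locDegAt_eq_relDeg, locDeg_eq_relDeg]
  have hext : (w.ext K).comp (algebraMap E K) = w.emb := FinPlace.ext_comp K w
  have htower := relDeg_tower (w.1 : ℕ) k E (w.ext K)
  rw [hext] at htower
  rw [htower]
  refine relDeg_eq_of_placeOf_eq (w.1 : ℕ) k _ _ ?_
  have h0 : ((w.below k).ext K).comp (algebraMap k K) = (w.below k).emb :=
    FinPlace.ext_comp K (w.below k)
  have h : (w.ext K).comp (algebraMap k K) = w.emb.comp (algebraMap k E) := by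
    rw [← hext, RingHom.comp_assoc, ← IsScalarTower.algebraMap_eq]
  rw [h]
  exact (congrArg (placeOf ((w.below k).1 : ℕ)) h0).trans (placeOf_below_emb k w)

/-- **Leaf (BELOW)** of `H29/C8Ex.lean`, verbatim. -/
theorem belowStatement : Fermat.Agent.S55.H29.BelowStatement := by
  intro k E _ _ _ _ _
  constructor
  · rintro ⟨q, u⟩
    obtain ⟨τ', hτ'⟩ := exists_extend (q : ℕ) (K := E) u.emb
    refine ⟨⟨q, placeOf (q : ℕ) τ'⟩, ?_⟩
    show (⟨q, PlaceAbove.restrict (q : ℕ) k E (placeOf (q : ℕ) τ')⟩ : FinPlace k) = ⟨q, u⟩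
    have h1 : PlaceAbove.restrict (q : ℕ) k E (placeOf (q : ℕ) τ') =
        placeOf (q : ℕ) (τ'.comp (algebraMap k E)) := rfl
    have h2 : placeOf (q : ℕ) u.emb = u := Quotient.out_eq u
    rw [h1, hτ', h2]
  · intro v
    have : Finite (PlaceAbove (v.1 : ℕ) E) := Quotient.finite _
    have hsub : {w : FinPlace E | w.below k = v} ⊆
        Set.range (fun w : PlaceAbove (v.1 : ℕ) E => (⟨v.1, w⟩ : FinPlace E)) := by
      rintro ⟨q', w'⟩ h
      have h1 : q' = v.1 := congrArg Sigma.fst (h : FinPlace.below k ⟨q', w'⟩ = v)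
      subst h1
      exact ⟨w', rfl⟩
    exact (Set.finite_range _).subset hsub

end Fermat.Agent.S55.H79
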