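/-
Program C (S55), package C8 (helper29's SPEC v2 part 2, `H29/C8Ex.lean`), leaf (DEG-SUM) — helper79.

`∑_{w ∣ v} [E_w : k_v] = [E : k]` for an arbitrary extension `E / k` of number fields, in
helper88's embedding model, and its summed form `SumLocDegStatement`.

Proof: count the embeddings `τ' : E →+* PadicAlgCl q` whose restriction to `k` lies in the place
`u` in two ways: by the place of `τ'` (orbits of size `[E_w : ℚ_q]`, helper41's `natCard_orbit`)
and by the restriction `τ'|k` (`[k_u : ℚ_q]` embeddings, each with `[E : k]` extensions).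

* `natCard_extensions` : an embedding of `k` has `[E : k]` extensions to `E`;
* `sum_relDeg_above`, `sum_locDeg_fibre` : the fundamental identity above one place;
* `sumLocDegStatement : H29.SumLocDegStatement` (VERBATIM).
-/
import Mathlib
import Fermat.Agent.S55.H79.LocDeg
import Fermat.Agent.S55.H41.SumLocalDegree

set_option autoImplicit false
set_option linter.unusedSectionVars false

open scoped IntermediateField
open Module

noncomputable section

namespace Fermat.Agent.S55.H79

open Fermat.Agent.S55.H88

/-- A finite type is the disjoint union of the fibres of a map. -/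
theorem natCard_eq_sum_fibres {α β : Type*} [Finite α] [Fintype β] (f : α → β) :
    Nat.card α = ∑ b, Nat.card {a : α // f a = b} := by
  rw [← Nat.card_sigma]
  exact Nat.card_congr (Equiv.sigmaFiberEquiv f).symm

section Count

variable (q : ℕ) [Fact q.Prime]

/-- The number of embeddings in a place is the degree of the completion. -/
theorem natCard_placeOf_eq (K : Type) [Field K] [NumberField K] (v : PlaceAbove q K) :
    Nat.card {τ : K →+* PadicAlgCl q // placeOf q τ = v} = finrank ℚ_[q] (locField q v.emb) := by
  rw [Nat.card_congr (Fermat.Agent.S55.H41.fibreEquiv q K v),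
    Fermat.Agent.S55.H41.natCard_orbit]

variable (k E : Type) [Field k] [NumberField k] [Field E] [NumberField E] [Algebra k E]

/-- An embedding of `k` has exactly `[E : k]` extensions to `E`. -/
theorem natCard_extensions (τ : k →+* PadicAlgCl q) :
    Nat.card {τ' : E →+* PadicAlgCl q // τ'.comp (algebraMap k E) = τ} = finrank k E := by
  let _ : Algebra k (PadicAlgCl q) := τ.toAlgebra
  let e : {τ' : E →+* PadicAlgCl q // τ'.comp (algebraMap k E) = τ} ≃ (E →ₐ[k] PadicAlgCl q) :=
    { toFun := fun τ' => { τ'.1 with commutes' := fun x => RingHom.congr_fun τ'.2 x }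
      invFun := fun ψ => ⟨ψ.toRingHom, RingHom.ext fun x => ψ.commutes x⟩
      left_inv := fun τ' => rfl
      right_inv := fun ψ => rfl }
  rw [Nat.card_congr e, Nat.card_eq_fintype_card, AlgHom.card]

/-- The embeddings of `E` above the place `u` of `k`, counted by their places. -/
theorem natCard_above_eq_sum (u : PlaceAbove q k) :
    Nat.card {τ' : E →+* PadicAlgCl q // placeOf q (τ'.comp (algebraMap k E)) = u} =
      ∑ᶠ w : {w : PlaceAbove q E // PlaceAbove.restrict q k E w = u},
        finrank ℚ_[q] (locField q w.1.emb) := by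
  classical
  have : Finite (PlaceAbove q E) := Quotient.finite _
  have : Fintype {w : PlaceAbove q E // PlaceAbove.restrict q k E w = u} := Fintype.ofFinite _
  rw [finsum_eq_sum_of_fintype]
  let f : {τ' : E →+* PadicAlgCl q // placeOf q (τ'.comp (algebraMap k E)) = u} →
      {w : PlaceAbove q E // PlaceAbove.restrict q k E w = u} := fun τ' => ⟨placeOf q τ'.1, τ'.2⟩
  rw [natCard_eq_sum_fibres f]
  refine Finset.sum_congr rfl fun w _ => ?_
  rw [← natCard_placeOf_eq q E w.1]
  refine Nat.card_congr
    { toFun := fun x => ⟨x.1.1, congrArg Subtype.val x.2⟩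
      invFun := fun τ' => ⟨⟨τ'.1, ?_⟩, Subtype.ext τ'.2⟩
      left_inv := fun x => rfl
      right_inv := fun τ' => rfl }
  have h1 : PlaceAbove.restrict q k E (placeOf q τ'.1) =
      placeOf q (τ'.1.comp (algebraMap k E)) := rfl
  rw [← h1, τ'.2]
  exact w.2

/-- The embeddings of `E` above the place `u` of `k`, counted by their restrictions to `k`. -/
theorem natCard_above_eq_mul (u : PlaceAbove q k) :
    Nat.card {τ' : E →+* PadicAlgCl q // placeOf q (τ'.comp (algebraMap k E)) = u} =
      finrank ℚ_[q] (locField q u.emb) * finrank k E := by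
  classical
  have : Fintype {τ : k →+* PadicAlgCl q // placeOf q τ = u} := Fintype.ofFinite _
  let g : {τ' : E →+* PadicAlgCl q // placeOf q (τ'.comp (algebraMap k E)) = u} →
      {τ : k →+* PadicAlgCl q // placeOf q τ = u} := fun τ' => ⟨τ'.1.comp (algebraMap k E), τ'.2⟩
  rw [natCard_eq_sum_fibres g]
  have h : ∀ τ : {τ : k →+* PadicAlgCl q // placeOf q τ = u},
      Nat.card {x : {τ' : E →+* PadicAlgCl q // placeOf q (τ'.comp (algebraMap k E)) = u} //
        g x = τ} = finrank k E := by
    intro τ
    rw [← natCard_extensions q k E τ.1]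
    refine Nat.card_congr
      { toFun := fun x => ⟨x.1.1, congrArg Subtype.val x.2⟩
        invFun := fun τ' => ⟨⟨τ'.1, ?_⟩, Subtype.ext τ'.2⟩
        left_inv := fun x => rfl
        right_inv := fun τ' => rfl }
    rw [τ'.2]
    exact τ.2
  rw [Finset.sum_congr rfl fun τ _ => h τ, Finset.sum_const, Finset.card_univ, smul_eq_mul,
    ← Nat.card_eq_fintype_card, natCard_placeOf_eq q k u]

/-- **The fundamental identity** `∑_{w ∣ u} [E_w : k_u] = [E : k]` above one place of `k`. -/
theorem sum_relDeg_above (u : PlaceAbove q k) :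
    ∑ᶠ w : {w : PlaceAbove q E // PlaceAbove.restrict q k E w = u}, relDeg q k w.1.emb =
      finrank k E := by
  classical
  have : Finite (PlaceAbove q E) := Quotient.finite _
  have : Fintype {w : PlaceAbove q E // PlaceAbove.restrict q k E w = u} := Fintype.ofFinite _
  have hpos : 0 < finrank ℚ_[q] (locField q u.emb) := by
    have := Fermat.Agent.S55.H41.finiteDimensional_locField q k u.emb
    exact Module.finrank_pos
  have key := natCard_above_eq_sum q k E u
  rw [natCard_above_eq_mul q k E u, finsum_eq_sum_of_fintype] at key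
  rw [finsum_eq_sum_of_fintype]
  apply Nat.eq_of_mul_eq_mul_left hpos
  rw [key, Finset.mul_sum]
  refine Finset.sum_congr rfl fun w _ => ?_
  rw [← finrank_mul_relDeg q k w.1.emb]
  congr 1
  apply finrank_locField_eq_of_placeOf_eq
  have h1 : placeOf q u.emb = u := Quotient.out_eq u
  have h2 : placeOf q w.1.emb = w.1 := Quotient.out_eq _
  have h3 : PlaceAbove.restrict q k E (placeOf q w.1.emb) =
      placeOf q (w.1.emb.comp (algebraMap k E)) := rfl
  rw [h1, ← h3, h2]
  exact w.2.symm

end Count

attribute [local instance] factOfPrimes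

section Fibre

variable (k E : Type) [Field k] [NumberField k] [Field E] [NumberField E] [Algebra k E]

/-- The fundamental identity above a finite place of `k`. -/
theorem sum_locDeg_fibre (v : FinPlace k) :
    ∑ᶠ w : {w : FinPlace E // w.below k = v}, w.1.locDeg k = finrank k E := by
  obtain ⟨q, u⟩ := v
  let f : {w : PlaceAbove (q : ℕ) E // PlaceAbove.restrict (q : ℕ) k E w = u} →
      {w : FinPlace E // w.below k = ⟨q, u⟩} := fun w => ⟨⟨q, w.1⟩, by
        show (⟨q, PlaceAbove.restrict (q : ℕ) k E w.1⟩ : FinPlace k) = ⟨q, u⟩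
        rw [w.2]⟩
  have hf : Function.Bijective f := by
    constructor
    · intro a b hab
      have h1 : (⟨q, a.1⟩ : FinPlace E) = ⟨q, b.1⟩ := congrArg Subtype.val hab
      exact Subtype.ext (eq_of_heq (Sigma.mk.inj_iff.1 h1).2)
    · rintro ⟨⟨q', w'⟩, h⟩
      have h' : (⟨q', PlaceAbove.restrict (q' : ℕ) k E w'⟩ : FinPlace k) = ⟨q, u⟩ := h
      obtain ⟨rfl, h2⟩ := Sigma.mk.inj_iff.1 h'
      exact ⟨⟨w', eq_of_heq h2⟩, rfl⟩
  rw [← finsum_comp_equiv (Equiv.ofBijective f hf), ← sum_relDeg_above (q : ℕ) k E u]
  refine finsum_congr fun p => ?_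
  exact locDeg_eq_relDeg k (f p).1

end Fibre

/-- **Leaf (DEG-SUM)** of `H29/C8Ex.lean`, verbatim. -/
theorem sumLocDegStatement : Fermat.Agent.S55.H29.SumLocDegStatement := by
  intro k E _ _ _ _ _ t ht
  classical
  have hfib : ∀ v : FinPlace k, {w : FinPlace E | w.below k = v}.Finite :=
    (belowStatement k E).2
  have hW : {w : FinPlace E | w.below k ∈ ht.toFinset}.Finite := by
    have h : {w : FinPlace E | w.below k ∈ ht.toFinset} =
        ⋃ v ∈ ht.toFinset, {w : FinPlace E | w.below k = v} := by
      ext w
      simp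
    rw [h]
    exact Set.Finite.biUnion ht.toFinset.finite_toSet fun v _ => hfib v
  have hsupp : Function.support (fun w : FinPlace E => w.locDeg k • t (w.below k)) ⊆
      ↑hW.toFinset := by
    intro w hw
    rw [Set.Finite.coe_toFinset]
    show w.below k ∈ ht.toFinset
    rw [Set.Finite.mem_toFinset]
    intro h0
    apply hw
    show w.locDeg k • t (w.below k) = 0
    rw [h0, smul_zero]
  have hmaps : ∀ w ∈ hW.toFinset, w.below k ∈ ht.toFinset := fun w hw =>
    (Set.Finite.mem_toFinset hW).1 hw
  rw [finsum_eq_sum_of_support_subset _ hsupp, ← Finset.sum_fiberwise_of_maps_to hmaps]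
  have hinner : ∀ v ∈ ht.toFinset,
      ∑ w ∈ hW.toFinset with w.below k = v, w.locDeg k • t (w.below k) = finrank k E • t v := by
    intro v hv
    have h1 : ∑ w ∈ hW.toFinset with w.below k = v, w.locDeg k • t (w.below k) =
        ∑ w ∈ hW.toFinset with w.below k = v, w.locDeg k • t v :=
      Finset.sum_congr rfl fun w hw => by rw [(Finset.mem_filter.1 hw).2]
    rw [h1, ← Finset.sum_smul]
    congr 1
    rw [← sum_locDeg_fibre k E v]
    have hset : ((hW.toFinset.filter fun w => w.below k = v : Finset (FinPlace E)) :
        Set (FinPlace E)) = {w | w.below k = v} := by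
      ext w
      simp only [Finset.coe_filter, Set.Finite.mem_toFinset, Set.mem_ofPred_eq]
      constructor
      · exact fun h => h.2
      · intro h
        exact ⟨by rw [h]; exact (Set.Finite.mem_toFinset ht).1 hv, h⟩
    rw [← finsum_mem_coe_finset, hset]
    exact (finsum_set_coe_eq_finsum_mem _).symm
  rw [Finset.sum_congr rfl hinner, ← Finset.smul_sum]
  congr 1
  exact (finsum_eq_sum_of_support_subset t (by rw [Set.Finite.coe_toFinset])).symm

end Fermat.Agent.S55.H79
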